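import Fermat.Agent.S55.Local.Spec

/-!
# S55 / layer L — (FF1a) additive `H¹` of a finite Galois extension vanishes   (helper324)

Classical proof: choose `θ` with `Tr θ = 1` and put `x = - ∑_h c h * h θ`.
-/

set_option autoImplicit false
set_option linter.style.haveILetI false

namespace Fermat.Agent.S55.H324

open groupCohomology

/-- Sum of the conjugates of an element of trace one. -/
theorem exists_sum_conj_eq_one (k l : Type) [Field k] [Field l] [Algebra k l]
    [FiniteDimensional k l] [IsGalois k l] :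
    ∃ θ : l, letI : Fintype (l ≃ₐ[k] l) := Fintype.ofFinite _
      ∑ h : l ≃ₐ[k] l, h θ = 1 := by
  classical
  obtain ⟨θ, hθ⟩ := Algebra.trace_surjective k l 1
  refine ⟨θ, ?_⟩
  letI : Fintype (l ≃ₐ[k] l) := Fintype.ofFinite _
  have h := trace_eq_sum_automorphisms (K := k) θ
  rw [hθ, map_one] at h
  rw [h]
  exact Finset.sum_congr (by ext; simp) fun _ _ => rfl

/-- **(FF1a)** additive `H¹` of a finite Galois extension vanishes. -/
theorem addH1 : Fermat.Agent.S55.Local.AddH1Statement := by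
  intro k l _ _ _ _ _ c hc
  classical
  letI : Fintype (l ≃ₐ[k] l) := Fintype.ofFinite _
  obtain ⟨θ, hθ⟩ := exists_sum_conj_eq_one k l
  have hθ' : ∑ h : l ≃ₐ[k] l, h θ = 1 := by
    rw [← hθ]
  refine ⟨-∑ h : l ≃ₐ[k] l, c h * h θ, fun g => ?_⟩
  have h1 : g • (∑ h : l ≃ₐ[k] l, c h * h θ) = ∑ h : l ≃ₐ[k] l, (c (g * h) - c g) * (g * h) θ := by
    rw [Finset.smul_sum]
    refine Finset.sum_congr rfl fun h _ => ?_
    have := hc g h
    rw [smul_mul', this]
    simp [AlgEquiv.smul_def, AlgEquiv.mul_apply]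
  have h2 : ∑ h : l ≃ₐ[k] l, (c (g * h) - c g) * (g * h) θ
      = ∑ h : l ≃ₐ[k] l, (c h - c g) * h θ :=
    Fintype.sum_equiv (Equiv.mulLeft g) _ _ fun h => rfl
  have h3 : ∑ h : l ≃ₐ[k] l, (c h - c g) * h θ
      = ∑ h : l ≃ₐ[k] l, c h * h θ - c g := by
    simp only [sub_mul, Finset.sum_sub_distrib, ← Finset.mul_sum, hθ', mul_one]
  rw [smul_neg, h1, h2, h3]
  ring

end Fermat.Agent.S55.H324
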